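import Fermat.Agent.S55.Local.H608.Core

/-!
# S55 layer L, pieces LF1, LF2, LF3, LF4, LF8 (helper608)

* `intOrInv      : IntOrInvStatement`        (LF1)
* `existsUnif    : ExistsUnifStatement`      (LF2)
* `intUnitsComap : IntUnitsComapStatement`   (LF3)
* `galoisInv     : GaloisInvStatement`       (LF4)
* `normUnitsInt  : NormUnitsIntStatement`    (LF8)
-/

set_option autoImplicit false
set_option linter.unusedSectionVars false
set_option linter.style.haveILetI false

namespace Fermat.Agent.S55.Local.H608

open IsLocalRing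

section Base

variable (A F : Type) [CommRing A] [Field F] [Algebra A F]
variable (L : Type) [Field L] [Algebra F L]

/-- `IsInt` is integrality for the algebra structure induced by `toL`. -/
theorem isInt_iff_isIntegral (x : L) :
    IsInt A F L x ↔ @IsIntegral A L _ _ (toL A F L).toAlgebra x := Iff.rfl

variable (K : Type) [Field K] [Algebra F K] [Algebra K L] [IsScalarTower F K L]

theorem toL_eq_algebraMap_toL (a : A) : toL A F L a = algebraMap K L (toL A F K a) := by
  simp only [toL_apply]
  exact IsScalarTower.algebraMap_apply F K L _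

/-- Integrality over `A` of the image of `y : K` in `L`. -/
theorem isInt_algebraMap_iff (y : K) : IsInt A F L (algebraMap K L y) ↔ IsInt A F K y := by
  letI : Algebra A K := (toL A F K).toAlgebra
  letI : Algebra A L := (toL A F L).toAlgebra
  haveI : IsScalarTower A K L :=
    IsScalarTower.of_algebraMap_eq (fun a => toL_eq_algebraMap_toL A F L K a)
  exact isIntegral_algebraMap_iff (R := A) (algebraMap K L).injective

/-- A `K`-automorphism of `L` preserves integrality over `A`. -/
theorem isInt_algEquiv (σ : L ≃ₐ[K] L) {x : L} (hx : IsInt A F L x) : IsInt A F L (σ x) := by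
  obtain ⟨P, hP, hPx⟩ := hx
  refine ⟨P, hP, ?_⟩
  have hσ : (σ : L →+* L).comp (toL A F L) = toL A F L := by
    ext a
    simp only [RingHom.comp_apply, RingHom.coe_coe]
    rw [toL_eq_algebraMap_toL A F L K a, σ.commutes]
  have h := Polynomial.hom_eval₂ P (toL A F L) (σ : L →+* L) x
  rw [hPx, map_zero, hσ] at h
  exact h.symm

end Base

section LF38

/-- (LF3) -/
theorem intUnitsComap : IntUnitsComapStatement := by
  intro A F _ _ _ _ _ _ _ _ _ K _ _ _ L _ _ _ _ _ y
  rw [mem_intUnits, mem_intUnits]
  have h1 : ((unitsIncl L K y : Lˣ) : L) = algebraMap K L (y : K) := rfl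
  have h2 : (((unitsIncl L K y)⁻¹ : Lˣ) : L) = algebraMap K L ((y⁻¹ : Kˣ) : K) := by
    rw [← map_inv]; rfl
  rw [h1, h2, isInt_algebraMap_iff, isInt_algebraMap_iff]

/-- Norms of integral elements are integral. -/
theorem isInt_norm (A F : Type) [CommRing A] [Field F] [Algebra A F]
    (K : Type) [Field K] [Algebra F K]
    (L : Type) [Field L] [Algebra F L] [Algebra K L] [IsScalarTower F K L]
    {x : L} (hx : IsInt A F L x) : IsInt A F K (Algebra.norm K x) := by
  letI : Algebra A K := (toL A F K).toAlgebra
  letI : Algebra A L := (toL A F L).toAlgebra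
  haveI : IsScalarTower A K L :=
    IsScalarTower.of_algebraMap_eq (fun a => toL_eq_algebraMap_toL A F L K a)
  exact Algebra.isIntegral_norm (R := A) K hx

/-- (LF8) -/
theorem normUnitsInt : NormUnitsIntStatement := by
  intro A F _ _ _ _ _ _ _ _ _ K _ _ _ L _ _ _ _ _ x hx
  rw [mem_intUnits] at hx ⊢
  refine ⟨isInt_norm A F K L hx.1, ?_⟩
  have : (((normUnits L K x)⁻¹ : Kˣ) : K) = Algebra.norm K ((x⁻¹ : Lˣ) : L) := by
    rw [← map_inv]; rfl
  rw [this]
  exact isInt_norm A F K L hx.2

end LF38

section LF12

variable (A F : Type) [CommRing A] [IsDomain A] [IsDiscreteValuationRing A]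
  [IsAdicComplete (maximalIdeal A) A]
  [Field F] [CharZero F] [Algebra A F] [IsFractionRing A F]
  (L : Type) [Field L] [Algebra F L] [FiniteDimensional F L]

/-- (LF1), unbundled. -/
theorem isInt_or_isInt_inv (x : L) : IsInt A F L x ∨ IsInt A F L x⁻¹ := by
  letI : Algebra A L := (toL A F L).toAlgebra
  haveI : IsScalarTower A F L := IsScalarTower.of_algebraMap_eq (fun _ => rfl)
  haveI := isDVR_intCl A F L
  haveI := isFractionRing_intCl A F L
  rcases ValuationRing.isInteger_or_isInteger (integralClosure A L) x with ⟨b, hb⟩ | ⟨b, hb⟩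
  · left
    rw [← hb]
    exact b.2
  · right
    rw [← hb]
    exact b.2

/-- If `x` is integral and `x⁻¹` is not, every unit is... (structure of `Lˣ`):
there is a uniformizer. (LF2), unbundled. -/
theorem exists_isUnif : ∃ ϖ : Lˣ, IsUnif A F L ϖ := by
  letI : Algebra A L := (toL A F L).toAlgebra
  haveI : IsScalarTower A F L := IsScalarTower.of_algebraMap_eq (fun _ => rfl)
  haveI := isDVR_intCl A F L
  haveI := isFractionRing_intCl A F L
  obtain ⟨ϖ, hϖ⟩ := IsDiscreteValuationRing.exists_irreducible (integralClosure A L)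
  have hϖ0 : (ϖ : L) ≠ 0 := by
    intro h
    exact hϖ.ne_zero (Subtype.ext h)
  -- units of `B` give integral units of `L`
  have hunit : ∀ u : (integralClosure A L)ˣ, ∀ x : Lˣ, (x : L) = ((u : integralClosure A L) : L) →
      x ∈ intUnits A F L := by
    intro u x hx
    rw [mem_intUnits]
    refine ⟨by rw [hx]; exact (u : integralClosure A L).2, ?_⟩
    have : ((x⁻¹ : Lˣ) : L) = (((u⁻¹ : (integralClosure A L)ˣ) : integralClosure A L) : L) := by
      rw [Units.val_inv_eq_inv_val, hx]
      symm
      apply eq_inv_of_mul_eq_one_left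
      have h2 : ((((u⁻¹ : (integralClosure A L)ˣ) : integralClosure A L) * u :
          integralClosure A L) : L) = ((1 : integralClosure A L) : L) :=
        congrArg Subtype.val u.inv_mul
      rw [Subalgebra.coe_mul, Subalgebra.coe_one] at h2
      exact h2
    rw [this]
    exact ((u⁻¹ : (integralClosure A L)ˣ) : integralClosure A L).2
  refine ⟨Units.mk0 (ϖ : L) hϖ0, ϖ.2, ?_, ?_⟩
  · intro hmem
    rw [mem_intUnits] at hmem
    apply hϖ.not_isUnit
    refine IsUnit.of_mul_eq_one (⟨_, hmem.2⟩ : integralClosure A L) ?_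
    apply Subtype.ext
    simp [hϖ0]
  · intro x
    obtain ⟨a, b, hb, hab⟩ := IsFractionRing.div_surjective (A := integralClosure A L) (x : L)
    have hb0 : b ≠ 0 := nonZeroDivisors.ne_zero hb
    have ha0 : a ≠ 0 := by
      rintro rfl
      rw [map_zero, zero_div] at hab
      exact x.ne_zero hab.symm
    obtain ⟨m, u, hu⟩ := IsDiscreteValuationRing.eq_unit_mul_pow_irreducible ha0 hϖ
    obtain ⟨k, v, hv⟩ := IsDiscreteValuationRing.eq_unit_mul_pow_irreducible hb0 hϖ
    refine ⟨(m : ℤ) - k, ?_⟩
    apply hunit (u * v⁻¹)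
    have hvL : (((v : integralClosure A L) : L)) ≠ 0 := by
      intro h
      exact v.ne_zero (Subtype.ext h)
    have hvinv : ((((v⁻¹ : (integralClosure A L)ˣ) : integralClosure A L) : L)) =
        (((v : integralClosure A L) : L))⁻¹ := by
      apply eq_inv_of_mul_eq_one_left
      have h2 : ((((v⁻¹ : (integralClosure A L)ˣ) : integralClosure A L) * v :
          integralClosure A L) : L) = ((1 : integralClosure A L) : L) :=
        congrArg Subtype.val v.inv_mul
      rw [Subalgebra.coe_mul, Subalgebra.coe_one] at h2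
      exact h2
    have hx : (x : L) = (((u : integralClosure A L) : L) * (ϖ : L) ^ m) /
        (((v : integralClosure A L) : L) * (ϖ : L) ^ k) := by
      rw [← hab, hu, hv]
      simp
    rw [Units.val_mul, Units.val_zpow_eq_zpow_val, Units.val_mk0, hx, Units.val_mul,
      Subalgebra.coe_mul, hvinv, neg_sub, zpow_sub₀ hϖ0, zpow_natCast, zpow_natCast]
    field_simp

end LF12

/-- (LF1) -/
theorem intOrInv : IntOrInvStatement := by
  intro A F _ _ _ _ _ _ _ _ _ L _ _ _ x
  exact isInt_or_isInt_inv A F L x

/-- (LF2) -/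
theorem existsUnif : ExistsUnifStatement := by
  intro A F _ _ _ _ _ _ _ _ _ L _ _ _
  exact exists_isUnif A F L

/-- (LF4) -/
theorem galoisInv : GaloisInvStatement := by
  intro A F _ _ _ _ _ _ _ _ _ K _ _ _ L _ _ _ _ _ σ x
  haveI : FiniteDimensional F L := FiniteDimensional.trans F K L
  -- `y = σ x / x`
  set y : Lˣ := σ • x / x with hy
  -- the product of the `σ^i y`, `i < n`, telescopes to `σ^n x / x`
  have htel : ∀ n : ℕ, ∏ i ∈ Finset.range n, (σ ^ i) • y = (σ ^ n) • x / x := by
    intro n
    induction n with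
    | zero => simp
    | succ n ih =>
      rw [Finset.prod_range_succ, ih, hy, smul_div', ← mul_smul, ← pow_succ]
      rw [div_mul_div_comm, mul_comm ((σ ^ n) • x), mul_div_mul_right_eq_div]
  have hfin : IsOfFinOrder σ := isOfFinOrder_of_finite σ
  have hn : 0 < orderOf σ := hfin.orderOf_pos
  have hprod : ∏ i ∈ Finset.range (orderOf σ), (σ ^ i) • y = 1 := by
    rw [htel, pow_orderOf_eq_one, one_smul, div_self']
  -- split off the factor `i = 0`
  obtain ⟨n, hn'⟩ : ∃ n, orderOf σ = n + 1 := ⟨orderOf σ - 1, by omega⟩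
  rw [hn', Finset.prod_range_succ'] at hprod
  simp only [pow_zero, one_smul] at hprod
  -- integrality of a product of conjugates
  have hint : ∀ z : Lˣ, IsInt A F L (z : L) →
      IsInt A F L ((∏ i ∈ Finset.range n, (σ ^ (i + 1)) • z : Lˣ) : L) := by
    intro z hz
    rw [Units.coe_prod]
    induction Finset.range n using Finset.induction_on with
    | empty => simpa using isInt_one A F L
    | insert a s has ih =>
      rw [Finset.prod_insert has]
      refine IsInt.mul ?_ ih
      exact isInt_algEquiv A F L K (σ ^ (a + 1)) hz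
  rw [mem_intUnits]
  rcases isInt_or_isInt_inv A F L (y : L) with h | h
  · refine ⟨h, ?_⟩
    have : (y⁻¹ : Lˣ) = ∏ i ∈ Finset.range n, (σ ^ (i + 1)) • y :=
      inv_eq_of_mul_eq_one_left hprod
    rw [this]
    exact hint y h
  · have h' : IsInt A F L ((y⁻¹ : Lˣ) : L) := by simpa using h
    refine ⟨?_, h'⟩
    have hprod' : (∏ i ∈ Finset.range n, (σ ^ (i + 1)) • y⁻¹) * y⁻¹ = 1 := by
      have := congrArg (fun t : Lˣ => t⁻¹) hprod
      simp only [mul_inv, inv_one] at this
      rw [← this, ← Finset.prod_inv_distrib]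
      simp only [smul_inv']
    have : y = ∏ i ∈ Finset.range n, (σ ^ (i + 1)) • y⁻¹ := by
      have h3 := inv_eq_of_mul_eq_one_left hprod'
      rw [inv_inv] at h3
      exact h3
    rw [this]
    exact hint y⁻¹ h'

end Fermat.Agent.S55.Local.H608
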