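import Fermat.Agent.S55.Local.H608.Rel

/-!
# S55 layer L (helper608): the inertia subgroup in the Spec language

* `IsNonUnitInt A F L y` : `y` lies in the maximal ideal of the ring of integers of `L`.
* `inertiaSub A F K L`   : the inertia subgroup of `Gal(L/K)`.
* `mem_inertiaSub_iff`   : `σ ∈ I ↔ ∀ x integral, σ x - x` lies in the maximal ideal.
* `card_inertiaSub`      : `|I| = e(L/K)`.
-/

set_option autoImplicit false
set_option linter.unusedSectionVars false
set_option linter.style.haveILetI false

namespace Fermat.Agent.S55.Local.H608

open IsLocalRing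

/-- `y` lies in the maximal ideal of the ring of integers of `L`. -/
def IsNonUnitInt (A F : Type) [CommRing A] [Field F] [Algebra A F]
    (L : Type) [Field L] [Algebra F L] (y : L) : Prop :=
  IsInt A F L y ∧ ∀ u : Lˣ, (u : L) = y → u ∉ intUnits A F L

section Inertia

variable (A F : Type) [CommRing A] [IsDomain A] [IsDiscreteValuationRing A]
  [IsAdicComplete (maximalIdeal A) A] [Finite (ResidueField A)]
  [Field F] [CharZero F] [Algebra A F] [IsFractionRing A F]
  (K : Type) [Field K] [Algebra F K] [FiniteDimensional F K]
  (L : Type) [Field L] [Algebra F L] [Algebra K L] [IsScalarTower F K L] [FiniteDimensional K L]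

/-- The inertia subgroup of `Gal(L/K)`. -/
noncomputable def inertiaSub : Subgroup (L ≃ₐ[K] L) :=
  letI : Algebra A K := (toL A F K).toAlgebra
  haveI : IsScalarTower A F K := IsScalarTower.of_algebraMap_eq (fun _ => rfl)
  haveI := isDVR_intCl A F K
  haveI := isAdicComplete_intCl A F K
  haveI := isFractionRing_intCl A F K
  haveI := charZero_of_base F K
  haveI := isLocalRing_intCl (integralClosure A K) K L
  haveI := isFractionRing_intCl (integralClosure A K) K L
  letI : MulSemiringAction Gal(L/K) (integralClosure (integralClosure A K) L) :=
    IsIntegralClosure.MulSemiringAction (integralClosure A K) K L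
      (integralClosure (integralClosure A K) L)
  (maximalIdeal (integralClosure (integralClosure A K) L)).inertia Gal(L/K)

theorem card_inertiaSub [IsGalois K L] :
    Nat.card (inertiaSub A F K L) = relRamIdx A F K L := by
  letI : Algebra A K := (toL A F K).toAlgebra
  haveI : IsScalarTower A F K := IsScalarTower.of_algebraMap_eq (fun _ => rfl)
  haveI := isDVR_intCl A F K
  haveI := isAdicComplete_intCl A F K
  haveI := finite_residueField_intCl A F K
  haveI := isFractionRing_intCl A F K
  haveI := charZero_of_base F K
  exact card_inertia_eq_ramIdx (integralClosure A K) K L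

theorem mem_inertiaSub_iff (σ : L ≃ₐ[K] L) :
    σ ∈ inertiaSub A F K L ↔ ∀ x : L, IsInt A F L x → IsNonUnitInt A F L (σ x - x) := by
  letI : Algebra A K := (toL A F K).toAlgebra
  haveI : IsScalarTower A F K := IsScalarTower.of_algebraMap_eq (fun _ => rfl)
  haveI := isDVR_intCl A F K
  haveI := isAdicComplete_intCl A F K
  haveI := finite_residueField_intCl A F K
  haveI := isFractionRing_intCl A F K
  haveI := charZero_of_base F K
  haveI := isDVR_intCl (integralClosure A K) K L
  haveI := isFractionRing_intCl (integralClosure A K) K L
  letI : MulSemiringAction Gal(L/K) (integralClosure (integralClosure A K) L) :=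
    IsIntegralClosure.MulSemiringAction (integralClosure A K) K L
      (integralClosure (integralClosure A K) L)
  have hm := isModel_relIntCl A F K L
  have hcoe : ∀ s : integralClosure (integralClosure A K) L,
      algebraMap (integralClosure (integralClosure A K) L) L (σ • s - s) =
        σ (algebraMap (integralClosure (integralClosure A K) L) L s) -
          algebraMap (integralClosure (integralClosure A K) L) L s := by
    intro s
    rw [map_sub]
    congr 1
    exact algebraMap_galRestrict_apply (integralClosure A K) σ s
  have hmax : ∀ y : integralClosure (integralClosure A K) L,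
      y ∈ maximalIdeal (integralClosure (integralClosure A K) L) ↔
        IsNonUnitInt A F L (algebraMap (integralClosure (integralClosure A K) L) L y) := by
    intro y
    rw [mem_maximalIdeal, mem_nonunits_iff]
    constructor
    · intro hy
      refine ⟨hm.isInt y, fun u hu hmem => hy ?_⟩
      obtain ⟨t, ht, htu⟩ := (hm.mem_intUnits_iff u).mp hmem
      have : t = y := IsFractionRing.injective _ L (by rw [htu, hu])
      exact this ▸ ht
    · rintro ⟨-, h2⟩ hy
      have hy0 : algebraMap (integralClosure (integralClosure A K) L) L y ≠ 0 :=
        hm.map_ne_zero hy.ne_zero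
      exact h2 (Units.mk0 _ hy0) rfl (hm.mem_intUnits_of_isUnit hy _ rfl)
  show σ ∈ (maximalIdeal (integralClosure (integralClosure A K) L)).inertia Gal(L/K) ↔ _
  rw [AddSubgroup.mem_inertia]
  constructor
  · intro h x hx
    obtain ⟨s, rfl⟩ := (hm x).mpr hx
    rw [← hcoe]
    exact (hmax _).mp (h s)
  · intro h s
    show σ • s - s ∈ maximalIdeal (integralClosure (integralClosure A K) L)
    rw [hmax, hcoe]
    exact h _ (hm.isInt s)

end Inertia

end Fermat.Agent.S55.Local.H608
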