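import Fermat.Agent.S55.Local.Spec
import Fermat.Prelude.Thm_Algebra_finite_maximalSpectrum_and_bijective_localization_of_module_finite
import Fermat.Prelude.Thm_IsLocalRing_isAdicComplete_of_module_finite

/-!
# S55 layer L, piece LF (helper608): the ring of integers of a local field

Core facts (an independent version of piece LF0): for a complete DVR `A` with fraction field `F`
of characteristic zero and a finite extension `L / F`, the integral closure `B` of `A` in `L`
is a discrete valuation ring, module-finite over `A`, with fraction field `L`.
-/

set_option autoImplicit false
set_option linter.unusedSectionVars false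
set_option linter.style.haveILetI false

namespace Fermat.Agent.S55.Local.H608

open IsLocalRing

/-- A module-finite domain over a complete Noetherian local ring is local. -/
theorem isLocalRing_of_finite_of_isDomain (𝒪 : Type) [CommRing 𝒪] [IsLocalRing 𝒪]
    [IsNoetherianRing 𝒪] [IsAdicComplete (maximalIdeal 𝒪) 𝒪] (B : Type) [CommRing B]
    [IsDomain B] [Algebra 𝒪 B] [Module.Finite 𝒪 B] : IsLocalRing B := by
  classical
  obtain ⟨-, hbij, -, -⟩ :=
    Algebra.finite_maximalSpectrum_and_bijective_localization_of_module_finite (𝒪 := 𝒪) B
  have : Subsingleton (MaximalSpectrum B) := by
    constructor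
    intro I J
    by_contra hIJ
    obtain ⟨eI, heI⟩ := hbij.2 (Pi.single I 1)
    obtain ⟨eJ, heJ⟩ := hbij.2 (Pi.single J 1)
    have h0 : eI * eJ = 0 := by
      apply hbij.1
      rw [map_mul, heI, heJ, map_zero]
      funext K
      by_cases hK : K = I
      · subst hK
        simp [hIJ]
      · simp [hK]
    rcases mul_eq_zero.mp h0 with h | h
    · have := congrFun heI I
      rw [h, map_zero] at this
      simp at this
    · have := congrFun heJ J
      rw [h, map_zero] at this
      simp at this
  have : Nonempty (MaximalSpectrum B) := by
    obtain ⟨m, hm⟩ := Ideal.exists_maximal B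
    exact ⟨⟨m, hm⟩⟩
  exact IsLocalRing.of_singleton_maximalSpectrum

section Tower

variable (A F : Type) [CommRing A] [IsDomain A] [IsDiscreteValuationRing A]
  [IsAdicComplete (maximalIdeal A) A]
  [Field F] [CharZero F] [Algebra A F] [IsFractionRing A F]
  (L : Type) [Field L] [Algebra F L] [FiniteDimensional F L]
  [Algebra A L] [IsScalarTower A F L]

include F

theorem finite_intCl : Module.Finite A (integralClosure A L) :=
  IsIntegralClosure.finite A F L (integralClosure A L)

theorem isDedekindDomain_intCl : IsDedekindDomain (integralClosure A L) :=
  integralClosure.isDedekindDomain A F L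

theorem isFractionRing_intCl : IsFractionRing (integralClosure A L) L :=
  IsIntegralClosure.isFractionRing_of_finite_extension A F L (integralClosure A L)

theorem isLocalRing_intCl : IsLocalRing (integralClosure A L) :=
  haveI := finite_intCl A F L
  isLocalRing_of_finite_of_isDomain A (integralClosure A L)

theorem not_isField_intCl : ¬ IsField (integralClosure A L) := by
  intro h
  have hinj : Function.Injective (algebraMap A (integralClosure A L)) := by
    have h1 : Function.Injective (algebraMap A L) := by
      rw [IsScalarTower.algebraMap_eq A F L]
      exact (algebraMap F L).injective.comp (IsFractionRing.injective A F)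
    intro a b hab
    apply h1
    have := congrArg (algebraMap (integralClosure A L) L) hab
    simpa [← IsScalarTower.algebraMap_apply] using this
  exact IsDiscreteValuationRing.not_isField A
    ((Algebra.IsIntegral.isField_iff_isField hinj).mpr h)

theorem isDVR_intCl : IsDiscreteValuationRing (integralClosure A L) := by
  haveI := isDedekindDomain_intCl A F L
  haveI := isLocalRing_intCl A F L
  exact ((IsDiscreteValuationRing.TFAE (integralClosure A L)
    (not_isField_intCl A F L)).out 0 2).mpr (isDedekindDomain_intCl A F L)

end Tower

end Fermat.Agent.S55.Local.H608
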