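import Fermat.Agent.S55.Local.H608.Core

/-!
# S55 layer L (helper608): more on the ring of integers of a local field

For a complete DVR `A` with finite residue field and a finite extension `L` of `F = Frac A`
(characteristic zero), the integral closure `B` of `A` in `L` is again a complete DVR with finite
residue field (so that `(B, L)` can serve as a new base pair).
-/

set_option autoImplicit false
set_option linter.unusedSectionVars false
set_option linter.style.haveILetI false

namespace Fermat.Agent.S55.Local.H608

open IsLocalRing

section Tower

variable (A F : Type) [CommRing A] [IsDomain A] [IsDiscreteValuationRing A]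
  [IsAdicComplete (maximalIdeal A) A]
  [Field F] [CharZero F] [Algebra A F] [IsFractionRing A F]
  (L : Type) [Field L] [Algebra F L] [FiniteDimensional F L]
  [Algebra A L] [IsScalarTower A F L]

include F

theorem injective_algebraMap_intCl :
    Function.Injective (algebraMap A (integralClosure A L)) := by
  have h1 : Function.Injective (algebraMap A L) := by
    rw [IsScalarTower.algebraMap_eq A F L]
    exact (algebraMap F L).injective.comp (IsFractionRing.injective A F)
  intro a b hab
  apply h1
  have := congrArg (algebraMap (integralClosure A L) L) hab
  simpa [← IsScalarTower.algebraMap_apply] using this

theorem faithfulSMul_intCl : FaithfulSMul A (integralClosure A L) :=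
  (faithfulSMul_iff_algebraMap_injective A (integralClosure A L)).mpr
    (injective_algebraMap_intCl A F L)

theorem isLocalHom_intCl :
    haveI := isLocalRing_intCl A F L
    IsLocalHom (algebraMap A (integralClosure A L)) := by
  haveI := isLocalRing_intCl A F L
  haveI := faithfulSMul_intCl A F L
  exact Algebra.IsIntegral.isLocalHom A (integralClosure A L)

theorem isAdicComplete_intCl :
    haveI := isLocalRing_intCl A F L
    IsAdicComplete (maximalIdeal (integralClosure A L)) (integralClosure A L) := by
  haveI := isLocalRing_intCl A F L
  haveI := finite_intCl A F L
  haveI := isLocalHom_intCl A F L
  exact IsLocalRing.isAdicComplete_of_module_finite (𝒪 := A)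

theorem finite_residueField_intCl [Finite (ResidueField A)] :
    haveI := isLocalRing_intCl A F L
    Finite (ResidueField (integralClosure A L)) := by
  haveI := isLocalRing_intCl A F L
  haveI := finite_intCl A F L
  haveI := isLocalHom_intCl A F L
  haveI : Module.Finite (ResidueField A) (ResidueField (integralClosure A L)) :=
    inferInstance
  exact Module.finite_of_finite (ResidueField A)

theorem charZero_of_base : CharZero L :=
  charZero_of_injective_algebraMap (algebraMap F L).injective

end Tower

end Fermat.Agent.S55.Local.H608
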