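import Fermat.Agent.S55.Local.H608.LF

/-!
# S55 layer L (helper608): dictionary between the Spec language and a DVR model

`T` is any discrete valuation ring with an algebra structure `T → L`, fraction field `L`, whose
image is exactly the set of elements of `L` integral over the base ring `A` (`IsInt A F L`).
Examples: `integralClosure A L` and `integralClosure (integralClosure A K) L`.

* `mem_intUnits_iff_model`   : `U_L` = image of `Tˣ`.
* `isUnif_of_irreducible`    : irreducible elements of `T` are uniformizers in the Spec sense.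
* `exists_irreducible_of_isUnif` : conversely.
* `zpow_mem_intUnits_iff`    : `ϖ ^ k ∈ U_L ↔ k = 0` for a uniformizer `ϖ`.
-/

set_option autoImplicit false
set_option linter.unusedSectionVars false
set_option linter.style.haveILetI false

namespace Fermat.Agent.S55.Local.H608

open IsLocalRing

/-- `T` is a model of the ring of integers of `L`. -/
def IsModel (A F : Type) [CommRing A] [Field F] [Algebra A F]
    (L : Type) [Field L] [Algebra F L] (T : Type) [CommRing T] [Algebra T L] : Prop :=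
  ∀ x : L, (∃ t : T, algebraMap T L t = x) ↔ IsInt A F L x

section Model

variable {A F : Type} [CommRing A] [Field F] [Algebra A F]
  {L : Type} [Field L] [Algebra F L]
  {T : Type} [CommRing T] [IsDomain T] [IsDiscreteValuationRing T] [Algebra T L]
  [IsFractionRing T L]

theorem IsModel.isInt (h : IsModel A F L T) (t : T) : IsInt A F L (algebraMap T L t) :=
  (h _).mp ⟨t, rfl⟩

theorem IsModel.mem_intUnits_of_isUnit (h : IsModel A F L T) {t : T} (ht : IsUnit t) (x : Lˣ)
    (hx : (x : L) = algebraMap T L t) : x ∈ intUnits A F L := by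
  obtain ⟨u, rfl⟩ := ht
  rw [mem_intUnits]
  refine ⟨by rw [hx]; exact h.isInt _, ?_⟩
  have : ((x⁻¹ : Lˣ) : L) = algebraMap T L ((u⁻¹ : Tˣ) : T) := by
    rw [Units.val_inv_eq_inv_val, hx]
    symm
    apply eq_inv_of_mul_eq_one_left
    rw [← map_mul, Units.inv_mul, map_one]
  rw [this]
  exact h.isInt _

theorem IsModel.mem_intUnits_iff (h : IsModel A F L T) (x : Lˣ) :
    x ∈ intUnits A F L ↔ ∃ t : T, IsUnit t ∧ algebraMap T L t = (x : L) := by
  constructor
  · intro hx
    rw [mem_intUnits] at hx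
    obtain ⟨t, ht⟩ := (h _).mpr hx.1
    obtain ⟨s, hs⟩ := (h _).mpr hx.2
    refine ⟨t, IsUnit.of_mul_eq_one s ?_, ht⟩
    apply IsFractionRing.injective T L
    rw [map_mul, ht, hs, map_one]
    simp
  · rintro ⟨t, ht, htx⟩
    exact h.mem_intUnits_of_isUnit ht x htx.symm

/-- Every unit of `L` is a power of a given irreducible of `T` times a unit of `T`. -/
theorem IsModel.exists_zpow (h : IsModel A F L T) {π : T} (hπ : Irreducible π) (x : Lˣ) :
    ∃ (n : ℤ) (u : T), IsUnit u ∧ (x : L) = algebraMap T L u * (algebraMap T L π) ^ n := by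
  obtain ⟨a, b, hb, hab⟩ := IsFractionRing.div_surjective (A := T) (x : L)
  have hb0 : b ≠ 0 := nonZeroDivisors.ne_zero hb
  have ha0 : a ≠ 0 := by
    rintro rfl
    rw [map_zero, zero_div] at hab
    exact x.ne_zero hab.symm
  obtain ⟨m, u, hu⟩ := IsDiscreteValuationRing.eq_unit_mul_pow_irreducible ha0 hπ
  obtain ⟨k, v, hv⟩ := IsDiscreteValuationRing.eq_unit_mul_pow_irreducible hb0 hπ
  have hπ0 : algebraMap T L π ≠ 0 := by
    intro h0
    exact hπ.ne_zero (IsFractionRing.injective T L (by rw [h0, map_zero]))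
  have hv0 : algebraMap T L (v : T) ≠ 0 := by
    intro h0
    exact v.ne_zero (IsFractionRing.injective T L (by rw [h0, map_zero]))
  refine ⟨(m : ℤ) - k, (u * v⁻¹ : Tˣ), Units.isUnit _, ?_⟩
  have hvinv : algebraMap T L ((v⁻¹ : Tˣ) : T) = (algebraMap T L (v : T))⁻¹ := by
    apply eq_inv_of_mul_eq_one_left
    rw [← map_mul, Units.inv_mul, map_one]
  rw [← hab, hu, hv, Units.val_mul, map_mul, map_mul, map_mul, map_pow, map_pow, hvinv,
    zpow_sub₀ hπ0, zpow_natCast, zpow_natCast]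
  field_simp

theorem IsModel.map_ne_zero (_h : IsModel A F L T) {π : T} (hπ : π ≠ 0) :
    algebraMap T L π ≠ 0 := by
  intro h0
  exact hπ (IsFractionRing.injective T L (by rw [h0, map_zero]))

/-- If `π ^ k` (`k : ℤ`) is the image of a unit of `T`, then `k = 0`. -/
theorem IsModel.zpow_eq_unit (h : IsModel A F L T) {π : T} (hπ : Irreducible π) (k : ℤ) (u : T)
    (hu : IsUnit u) (hk : (algebraMap T L π) ^ k = algebraMap T L u) : k = 0 := by
  have hπ0 : algebraMap T L π ≠ 0 := h.map_ne_zero hπ.ne_zero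
  by_contra hne
  rcases lt_or_gt_of_ne hne with hlt | hgt
  · -- `k < 0`: `π ^ (-k) * u = 1`
    obtain ⟨n, hn⟩ : ∃ n : ℕ, k = -((n : ℤ) + 1) := ⟨(-k - 1).toNat, by omega⟩
    have h1 : algebraMap T L (π ^ (n + 1) * u) = 1 := by
      rw [map_mul, map_pow, ← hk, hn, zpow_neg, ← zpow_natCast]
      push_cast
      exact mul_inv_cancel₀ (zpow_ne_zero _ hπ0)
    have h2 : π ^ (n + 1) * u = 1 := IsFractionRing.injective T L (by rw [h1, map_one])
    apply hπ.not_isUnit
    rw [pow_succ, mul_assoc, mul_comm, mul_assoc] at h2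
    exact IsUnit.of_mul_eq_one _ h2
  · obtain ⟨n, hn⟩ : ∃ n : ℕ, k = (n : ℤ) + 1 := ⟨(k - 1).toNat, by omega⟩
    have h1 : algebraMap T L (π ^ (n + 1)) = algebraMap T L u := by
      rw [map_pow, ← hk, hn, ← zpow_natCast]
      push_cast
      rfl
    have h2 : π ^ (n + 1) = u := IsFractionRing.injective T L h1
    apply hπ.not_isUnit
    have h3 : IsUnit (π ^ (n + 1)) := h2 ▸ hu
    exact (isUnit_pow_iff (Nat.succ_ne_zero n)).mp h3

/-- Irreducible elements of the model are uniformizers. -/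
theorem IsModel.isUnif_of_irreducible (h : IsModel A F L T) {π : T} (hπ : Irreducible π)
    (ϖ : Lˣ) (hϖ : (ϖ : L) = algebraMap T L π) : IsUnif A F L ϖ := by
  refine ⟨by rw [hϖ]; exact h.isInt _, ?_, ?_⟩
  · intro hmem
    obtain ⟨t, ht, htϖ⟩ := (h.mem_intUnits_iff ϖ).mp hmem
    have : t = π := IsFractionRing.injective T L (by rw [htϖ, hϖ])
    exact hπ.not_isUnit (this ▸ ht)
  · intro x
    obtain ⟨n, u, hu, hx⟩ := h.exists_zpow hπ x
    refine ⟨n, ?_⟩
    apply h.mem_intUnits_of_isUnit hu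
    have hπ0 : algebraMap T L π ≠ 0 := h.map_ne_zero hπ.ne_zero
    rw [Units.val_mul, Units.val_zpow_eq_zpow_val, hϖ, hx, zpow_neg]
    field_simp

/-- Uniformizers (Spec sense) are images of irreducible elements of the model. -/
theorem IsModel.exists_irreducible_of_isUnif (h : IsModel A F L T) {ϖ : Lˣ}
    (hϖ : IsUnif A F L ϖ) : ∃ π : T, Irreducible π ∧ algebraMap T L π = (ϖ : L) := by
  obtain ⟨hint, hnu, hgen⟩ := hϖ
  obtain ⟨π₀, hπ₀⟩ := IsDiscreteValuationRing.exists_irreducible T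
  have hπ₀L : algebraMap T L π₀ ≠ 0 := h.map_ne_zero hπ₀.ne_zero
  obtain ⟨t, ht⟩ := (h _).mpr hint
  have ht0 : t ≠ 0 := by
    rintro rfl
    rw [map_zero] at ht
    exact ϖ.ne_zero ht.symm
  obtain ⟨a, v, hv⟩ := IsDiscreteValuationRing.eq_unit_mul_pow_irreducible ht0 hπ₀
  -- `π₀ = ϖ ^ n * u`
  obtain ⟨n, hn⟩ := hgen (Units.mk0 _ hπ₀L)
  obtain ⟨u, hu, huL⟩ := (h.mem_intUnits_iff _).mp hn
  rw [Units.val_mul, Units.val_zpow_eq_zpow_val, Units.val_mk0, zpow_neg] at huL
  have hϖ0 : (ϖ : L) ≠ 0 := ϖ.ne_zero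
  have hϖeq : (ϖ : L) = algebraMap T L (v : T) * (algebraMap T L π₀) ^ (a : ℤ) := by
    rw [← ht, hv, map_mul, map_pow, zpow_natCast]
  have hvL : algebraMap T L (v : T) ≠ 0 := h.map_ne_zero v.ne_zero
  -- `π₀ ^ (1 - a n)` is a unit
  have key : (algebraMap T L π₀) ^ (1 - (a : ℤ) * n) = algebraMap T L (u * (v : T) ^ n.toNat *
      ((v⁻¹ : Tˣ) : T) ^ (-n).toNat) := by
    have hvinv : algebraMap T L ((v⁻¹ : Tˣ) : T) = (algebraMap T L (v : T))⁻¹ := by
      apply eq_inv_of_mul_eq_one_left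
      rw [← map_mul, Units.inv_mul, map_one]
    have hvz : (algebraMap T L (v : T)) ^ n = algebraMap T L ((v : T) ^ n.toNat *
        ((v⁻¹ : Tˣ) : T) ^ (-n).toNat) := by
      rw [map_mul, map_pow, map_pow, hvinv]
      rcases le_total 0 n with h0 | h0
      · have h1 : (-n).toNat = 0 := by omega
        rw [h1, pow_zero, mul_one, ← zpow_natCast, Int.toNat_of_nonneg h0]
      · have h1 : n.toNat = 0 := by omega
        rw [h1, pow_zero, one_mul, inv_pow, ← zpow_natCast, ← zpow_neg,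
          Int.toNat_of_nonneg (by omega : (0 : ℤ) ≤ -n), neg_neg]
    rw [mul_assoc, map_mul, ← hvz, huL, hϖeq, mul_zpow, ← zpow_mul, zpow_sub₀ hπ₀L, zpow_one]
    have h1 : (algebraMap T L) ↑v ^ n ≠ 0 := zpow_ne_zero _ hvL
    have h2 : (algebraMap T L) π₀ ^ ((a : ℤ) * n) ≠ 0 := zpow_ne_zero _ hπ₀L
    field_simp
  have hk := h.zpow_eq_unit hπ₀ _ _ (by
    refine (hu.mul (v.isUnit.pow _)).mul (Units.isUnit _ |>.pow _)) key
  have ha : a = 1 := by
    have h1 : (a : ℤ) * n = 1 := by omega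
    have h2 : (a : ℤ) ∣ 1 := Dvd.intro _ h1
    have h3 : (a : ℤ) = 1 := by
      rcases Int.isUnit_iff.mp (isUnit_of_dvd_one h2) with h4 | h4
      · exact h4
      · omega
    exact_mod_cast h3
  refine ⟨t, ?_, ht⟩
  rw [hv, ha, pow_one]
  exact (irreducible_units_mul v).mpr hπ₀

/-- `ϖ ^ k ∈ U_L ↔ k = 0` for a uniformizer `ϖ`. -/
theorem IsModel.zpow_mem_intUnits_iff (h : IsModel A F L T) {ϖ : Lˣ} (hϖ : IsUnif A F L ϖ)
    (k : ℤ) : ϖ ^ k ∈ intUnits A F L ↔ k = 0 := by
  constructor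
  · intro hk
    obtain ⟨π, hπ, hπϖ⟩ := h.exists_irreducible_of_isUnif hϖ
    obtain ⟨u, hu, huL⟩ := (h.mem_intUnits_iff _).mp hk
    apply h.zpow_eq_unit hπ k u hu
    rw [hπϖ, huL, Units.val_zpow_eq_zpow_val]
  · rintro rfl
    simp

end Model

end Fermat.Agent.S55.Local.H608
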