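import Fermat.Agent.S55.Local.H608.Core2

/-!
# S55 layer L (helper608): ramification index, inertia group, `e * f = n` (generic form)

Generic setting: `R` a complete DVR with finite residue field, `K = Frac R` of characteristic
zero, `L / K` finite, `S = integralClosure R L` (a DVR by `Core`).

* `ramIdx R K L`         : the ramification index `e` of `S / R`.
* `associated_pow_ramIdx`: `π_R ~ π_S ^ e` for uniformizers.
* `card_inertia_eq_ramIdx` : for `L / K` Galois, the inertia group of the maximal ideal of `S`
  in `Gal(L/K)` has order `e`.
* `ramIdx_mul_resDeg`    : `e * [k_S : k_R] = [L : K]`.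
-/

set_option autoImplicit false
set_option linter.unusedSectionVars false
set_option linter.style.haveILetI false

namespace Fermat.Agent.S55.Local.H608

open IsLocalRing

section Generic

variable (R K : Type) [CommRing R] [IsDomain R] [IsDiscreteValuationRing R]
  [IsAdicComplete (maximalIdeal R) R] [Finite (ResidueField R)]
  [Field K] [CharZero K] [Algebra R K] [IsFractionRing R K]
  (L : Type) [Field L] [Algebra K L] [FiniteDimensional K L] [Algebra R L] [IsScalarTower R K L]

/-- The ramification index of `integralClosure R L` over `R`. -/
noncomputable def ramIdx : ℕ :=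
  haveI := isLocalRing_intCl R K L
  (maximalIdeal (integralClosure R L)).ramificationIdx R

include K in
theorem ramIdx_pos : 0 < ramIdx R K L := by
  haveI := isLocalRing_intCl R K L
  haveI := finite_intCl R K L
  exact Ideal.ramificationIdx_pos _ R

include K in
/-- `π_R = unit * π_S ^ e`. -/
theorem associated_pow_ramIdx (πR : R) (hR : Irreducible πR) (πS : integralClosure R L)
    (hS : Irreducible πS) :
    Associated (algebraMap R (integralClosure R L) πR) (πS ^ ramIdx R K L) := by
  haveI := isDVR_intCl R K L
  haveI := finite_intCl R K L
  haveI := isLocalHom_intCl R K L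
  haveI := faithfulSMul_intCl R K L
  have hy0 : algebraMap R (integralClosure R L) πR ≠ 0 := by
    intro h
    apply hR.ne_zero
    exact injective_algebraMap_intCl R K L (by rw [h, map_zero])
  obtain ⟨m, u, hu⟩ := IsDiscreteValuationRing.eq_unit_mul_pow_irreducible hy0 hS
  have hp : maximalIdeal R = Ideal.span {πR} :=
    (IsDiscreteValuationRing.irreducible_iff_uniformizer πR).mp hR
  have hP : maximalIdeal (integralClosure R L) = Ideal.span {πS} :=
    (IsDiscreteValuationRing.irreducible_iff_uniformizer πS).mp hS
  have hmap : Ideal.map (algebraMap R (integralClosure R L)) (maximalIdeal R) =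
      Ideal.span {algebraMap R (integralClosure R L) πR} := by
    rw [hp, Ideal.map_span, Set.image_singleton]
  have hle : Ideal.map (algebraMap R (integralClosure R L)) (maximalIdeal R) ≤
      maximalIdeal (integralClosure R L) ^ m := by
    rw [hmap, hP, Ideal.span_singleton_pow, Ideal.span_singleton_le_span_singleton, hu]
    exact Dvd.intro_left _ rfl
  have hgt : ¬ Ideal.map (algebraMap R (integralClosure R L)) (maximalIdeal R) ≤
      maximalIdeal (integralClosure R L) ^ (m + 1) := by
    rw [hmap, hP, Ideal.span_singleton_pow, Ideal.span_singleton_le_span_singleton, hu]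
    rintro ⟨c, hc⟩
    have hπ0 : πS ^ m ≠ 0 := pow_ne_zero _ hS.ne_zero
    have : (u : integralClosure R L) = πS * c := by
      have h2 : πS ^ m * (u : integralClosure R L) = πS ^ m * (πS * c) := by
        rw [mul_comm, hc, pow_succ]; ring
      exact mul_left_cancel₀ hπ0 h2
    exact hS.not_isUnit (isUnit_of_mul_isUnit_left (this ▸ u.isUnit))
  have he : ramIdx R K L = m := by
    unfold ramIdx
    rw [← Ideal.ramificationIdx'_eq_ramificationIdx (maximalIdeal R)
      (maximalIdeal (integralClosure R L)) (IsDiscreteValuationRing.not_a_field R)]
    exact Ideal.ramificationIdx'_spec hle hgt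
  rw [he, hu]
  exact ⟨u⁻¹, by rw [mul_comm _ (πS ^ m), mul_assoc]; simp⟩

include K in
/-- In the Galois case the inertia group has order `e`. -/
theorem card_inertia_eq_ramIdx [IsGalois K L] :
    haveI := isLocalRing_intCl R K L
    letI : MulSemiringAction Gal(L/K) (integralClosure R L) :=
      IsIntegralClosure.MulSemiringAction R K L (integralClosure R L)
    Nat.card ((maximalIdeal (integralClosure R L)).inertia Gal(L/K)) = ramIdx R K L := by
  haveI := isDVR_intCl R K L
  haveI := finite_intCl R K L
  haveI := isFractionRing_intCl R K L
  haveI := isLocalHom_intCl R K L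
  haveI := faithfulSMul_intCl R K L
  letI : MulSemiringAction Gal(L/K) (integralClosure R L) :=
    IsIntegralClosure.MulSemiringAction R K L (integralClosure R L)
  haveI : IsGaloisGroup Gal(L/K) R (integralClosure R L) :=
    IsGaloisGroup.of_isFractionRing _ _ _ K L
  haveI : Finite (R ⧸ maximalIdeal R) := ‹Finite (ResidueField R)›
  rw [Ideal.card_inertia_eq_ramificationIdxIn (G := Gal(L/K)) (maximalIdeal R)
    (maximalIdeal (integralClosure R L)),
    Ideal.ramificationIdxIn_eq_ramificationIdx (maximalIdeal R)
    (maximalIdeal (integralClosure R L)) Gal(L/K)]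
  rfl

/-- The residue degree of `integralClosure R L` over `R`. -/
noncomputable def resDeg : ℕ :=
  haveI := isLocalRing_intCl R K L
  (maximalIdeal (integralClosure R L)).inertiaDeg R

include K in
theorem ramIdx_mul_resDeg : ramIdx R K L * resDeg R K L = Module.finrank K L := by
  haveI := isDVR_intCl R K L
  haveI := finite_intCl R K L
  haveI := isFractionRing_intCl R K L
  haveI := isLocalHom_intCl R K L
  haveI := faithfulSMul_intCl R K L
  haveI : FaithfulSMul R L := by
    rw [faithfulSMul_iff_algebraMap_injective, IsScalarTower.algebraMap_eq R K L]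
    exact (algebraMap K L).injective.comp (IsFractionRing.injective R K)
  haveI : Fintype ((maximalIdeal R).primesOver (integralClosure R L)) := Fintype.ofFinite _
  have h4 := Ideal.sum_ramification_inertia_eq_finrank (maximalIdeal R) (integralClosure R L)
  have hP : (maximalIdeal (integralClosure R L)) ∈
      (maximalIdeal R).primesOver (integralClosure R L) := ⟨inferInstance, inferInstance⟩
  have huniq : ∀ q : (maximalIdeal R).primesOver (integralClosure R L),
      q = ⟨_, hP⟩ := by
    rintro ⟨q, hq1, hq2⟩
    apply Subtype.ext
    show q = maximalIdeal (integralClosure R L)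
    have hq0 : q ≠ ⊥ := by
      intro h
      have h1 := hq2.over
      rw [h] at h1
      have : maximalIdeal R = ⊥ := by
        rw [h1]
        exact Ideal.comap_bot_of_injective _ (injective_algebraMap_intCl R K L)
      exact IsDiscreteValuationRing.not_a_field R this
    exact IsLocalRing.eq_maximalIdeal (hq1.isMaximal hq0)
  rw [Fintype.sum_eq_single ⟨_, hP⟩ (fun q hq => absurd (huniq q) hq)] at h4
  rw [← IsIntegralClosure.rank R K L (integralClosure R L), ← h4]
  rfl



end Generic

end Fermat.Agent.S55.Local.H608
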