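import Fermat.Agent.S55.Local.H608.Dict
import Fermat.Agent.S55.Local.H608.Ram

/-!
# S55 layer L (helper608): relative ramification index in the Spec language

For a base pair `(A, F)` and local fields `K ⊆ L` (finite over `F`):

* `relRamIdx A F K L`   : the ramification index `e(L/K)`.
* `unif_mul_zpow_relRamIdx` : `ϖK * ϖL ^ (-e) ∈ U_L` for uniformizers `ϖK`, `ϖL`.
* `isUnram_iff_relRamIdx` : `IsUnram A F L K ↔ e(L/K) = 1`.
-/

set_option autoImplicit false
set_option linter.unusedSectionVars false
set_option linter.style.haveILetI false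

namespace Fermat.Agent.S55.Local.H608

open IsLocalRing

section Abs

variable (A F : Type) [CommRing A] [IsDomain A] [IsDiscreteValuationRing A]
  [IsAdicComplete (maximalIdeal A) A] [Finite (ResidueField A)]
  [Field F] [CharZero F] [Algebra A F] [IsFractionRing A F]
  (L : Type) [Field L] [Algebra F L] [FiniteDimensional F L]

/-- the absolute model -/
theorem isModel_intCl :
    letI : Algebra A L := (toL A F L).toAlgebra
    IsModel A F L (integralClosure A L) := by
  letI : Algebra A L := (toL A F L).toAlgebra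
  intro x
  constructor
  · rintro ⟨t, rfl⟩
    exact t.2
  · intro hx
    exact ⟨⟨x, hx⟩, rfl⟩

/-- `ϖL ^ k ∈ U_L ↔ k = 0`. -/
theorem unif_zpow_mem_iff (ϖL : Lˣ) (hL : IsUnif A F L ϖL) (k : ℤ) :
    ϖL ^ k ∈ intUnits A F L ↔ k = 0 := by
  letI : Algebra A L := (toL A F L).toAlgebra
  haveI : IsScalarTower A F L := IsScalarTower.of_algebraMap_eq (fun _ => rfl)
  haveI := isDVR_intCl A F L
  haveI := isFractionRing_intCl A F L
  exact (isModel_intCl A F L).zpow_mem_intUnits_iff hL k

end Abs

section Rel

variable (A F : Type) [CommRing A] [IsDomain A] [IsDiscreteValuationRing A]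
  [IsAdicComplete (maximalIdeal A) A] [Finite (ResidueField A)]
  [Field F] [CharZero F] [Algebra A F] [IsFractionRing A F]
  (K : Type) [Field K] [Algebra F K] [FiniteDimensional F K]
  (L : Type) [Field L] [Algebra F L] [Algebra K L] [IsScalarTower F K L] [FiniteDimensional K L]

/-- The ramification index `e(L/K)`. -/
noncomputable def relRamIdx : ℕ :=
  letI : Algebra A K := (toL A F K).toAlgebra
  haveI : IsScalarTower A F K := IsScalarTower.of_algebraMap_eq (fun _ => rfl)
  haveI := isDVR_intCl A F K
  haveI := isAdicComplete_intCl A F K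
  haveI := isFractionRing_intCl A F K
  haveI := charZero_of_base F K
  ramIdx (integralClosure A K) K L

/-- the relative model -/
theorem isModel_relIntCl :
    letI : Algebra A K := (toL A F K).toAlgebra
    IsModel A F L (integralClosure (integralClosure A K) L) := by
  letI : Algebra A K := (toL A F K).toAlgebra
  letI : Algebra A L := (toL A F L).toAlgebra
  haveI : IsScalarTower A K L :=
    IsScalarTower.of_algebraMap_eq (fun a => toL_eq_algebraMap_toL A F L K a)
  intro x
  constructor
  · rintro ⟨t, rfl⟩
    have h1 : IsIntegral (integralClosure A K) (t : L) := t.2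
    exact isIntegral_trans (R := A) (A := integralClosure A K) _ h1
  · intro hx
    have h1 : IsIntegral A x := hx
    exact ⟨⟨x, h1.tower_top⟩, rfl⟩

theorem relRamIdx_pos : 0 < relRamIdx A F K L := by
  letI : Algebra A K := (toL A F K).toAlgebra
  haveI : IsScalarTower A F K := IsScalarTower.of_algebraMap_eq (fun _ => rfl)
  haveI := isDVR_intCl A F K
  haveI := isAdicComplete_intCl A F K
  haveI := finite_residueField_intCl A F K
  haveI := isFractionRing_intCl A F K
  haveI := charZero_of_base F K
  exact ramIdx_pos (integralClosure A K) K L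

/-- `ϖK = unit * ϖL ^ e`. -/
theorem unif_mul_zpow_relRamIdx (ϖK : Kˣ) (ϖL : Lˣ) (hK : IsUnif A F K ϖK)
    (hL : IsUnif A F L ϖL) :
    unitsIncl L K ϖK * ϖL ^ (-(relRamIdx A F K L : ℤ)) ∈ intUnits A F L := by
  letI : Algebra A K := (toL A F K).toAlgebra
  haveI : IsScalarTower A F K := IsScalarTower.of_algebraMap_eq (fun _ => rfl)
  haveI := isDVR_intCl A F K
  haveI := isAdicComplete_intCl A F K
  haveI := finite_residueField_intCl A F K
  haveI := isFractionRing_intCl A F K
  haveI := charZero_of_base F K
  haveI := isDVR_intCl (integralClosure A K) K L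
  haveI := isFractionRing_intCl (integralClosure A K) K L
  have hmK := isModel_intCl A F K
  have hmL := isModel_relIntCl A F K L
  obtain ⟨πR, hπR, hπRK⟩ := hmK.exists_irreducible_of_isUnif hK
  obtain ⟨πS, hπS, hπSL⟩ := hmL.exists_irreducible_of_isUnif hL
  obtain ⟨u, hu⟩ := associated_pow_ramIdx (integralClosure A K) K L πR hπR πS hπS
  -- `πR * u = πS ^ e`
  apply hmL.mem_intUnits_of_isUnit (t := ((u⁻¹ : (integralClosure (integralClosure A K) L)ˣ) :
    integralClosure (integralClosure A K) L)) (Units.isUnit _)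
  have hϖL0 : (ϖL : L) ≠ 0 := ϖL.ne_zero
  have h1 : algebraMap (integralClosure (integralClosure A K) L) L
      (algebraMap (integralClosure A K) (integralClosure (integralClosure A K) L) πR) =
      algebraMap K L (ϖK : K) := by
    rw [← hπRK, ← IsScalarTower.algebraMap_apply, ← IsScalarTower.algebraMap_apply]
  have h2 := congrArg (algebraMap (integralClosure (integralClosure A K) L) L) hu
  rw [map_mul, map_pow, h1, hπSL] at h2
  have hu0 : algebraMap (integralClosure (integralClosure A K) L) L
      (u : integralClosure (integralClosure A K) L) ≠ 0 := hmL.map_ne_zero u.ne_zero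
  have hinv : algebraMap (integralClosure (integralClosure A K) L) L
      ((u⁻¹ : (integralClosure (integralClosure A K) L)ˣ) :
        integralClosure (integralClosure A K) L) =
      (algebraMap (integralClosure (integralClosure A K) L) L
        (u : integralClosure (integralClosure A K) L))⁻¹ := by
    apply eq_inv_of_mul_eq_one_left
    rw [← map_mul, Units.inv_mul, map_one]
  rw [Units.val_mul, Units.val_zpow_eq_zpow_val, unitsIncl_coe, hinv, zpow_neg, zpow_natCast]
  show _ * ((ϖL : L) ^ ramIdx (integralClosure A K) K L)⁻¹ = _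
  rw [← h2]
  have h3 : algebraMap K L (ϖK : K) ≠ 0 := by
    simp
  field_simp

/-- `L / K` is unramified iff `e(L/K) = 1`. -/
theorem isUnram_iff_relRamIdx : IsUnram A F L K ↔ relRamIdx A F K L = 1 := by
  haveI : FiniteDimensional F L := FiniteDimensional.trans F K L
  obtain ⟨ϖK, hK⟩ := exists_isUnif A F K
  obtain ⟨ϖL, hL⟩ := exists_isUnif A F L
  have hb := unif_mul_zpow_relRamIdx A F K L ϖK ϖL hK hL
  constructor
  · intro hur
    obtain ⟨y, hy⟩ := hur ϖL
    obtain ⟨n, hn⟩ := hK.2.2 y
    have hn' : unitsIncl L K (y * ϖK ^ (-n)) ∈ intUnits A F L :=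
      (intUnitsComap A F K L _).mpr hn
    have key : ϖL ^ (1 - (relRamIdx A F K L : ℤ) * n) ∈ intUnits A F L := by
      have : ϖL ^ (1 - (relRamIdx A F K L : ℤ) * n) =
          (ϖL * (unitsIncl L K y)⁻¹) * unitsIncl L K (y * ϖK ^ (-n)) *
            (unitsIncl L K ϖK * ϖL ^ (-(relRamIdx A F K L : ℤ))) ^ n := by
        rw [map_mul, map_zpow]
        apply Additive.ofMul.injective
        simp only [ofMul_mul, ofMul_zpow, ofMul_inv]
        module
      rw [this]
      exact (intUnits A F L).mul_mem ((intUnits A F L).mul_mem hy hn')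
        ((intUnits A F L).zpow_mem hb n)
    have h0 := (unif_zpow_mem_iff A F L ϖL hL _).mp key
    have hpos := relRamIdx_pos A F K L
    have h1 : (relRamIdx A F K L : ℤ) * n = 1 := by omega
    have h2 : ((relRamIdx A F K L : ℤ)) ∣ 1 := Dvd.intro _ h1
    rcases Int.isUnit_iff.mp (isUnit_of_dvd_one h2) with h4 | h4
    · exact_mod_cast h4
    · omega
  · intro he x
    obtain ⟨n, hn⟩ := hL.2.2 x
    refine ⟨ϖK ^ n, ?_⟩
    rw [he] at hb
    have : x * (unitsIncl L K (ϖK ^ n))⁻¹ =
        (x * ϖL ^ (-n)) * ((unitsIncl L K ϖK * ϖL ^ (-((1 : ℕ) : ℤ))) ^ n)⁻¹ := by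
      rw [map_zpow]
      apply Additive.ofMul.injective
      simp only [ofMul_mul, ofMul_zpow, ofMul_inv]
      push_cast
      module
    rw [this]
    exact (intUnits A F L).mul_mem hn ((intUnits A F L).inv_mem ((intUnits A F L).zpow_mem hb n))

end Rel

section Tower3

variable (A F : Type) [CommRing A] [IsDomain A] [IsDiscreteValuationRing A]
  [IsAdicComplete (maximalIdeal A) A] [Finite (ResidueField A)]
  [Field F] [CharZero F] [Algebra A F] [IsFractionRing A F]
  (K : Type) [Field K] [Algebra F K] [FiniteDimensional F K]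
  (E : Type) [Field E] [Algebra F E] [FiniteDimensional F E] [Algebra K E] [IsScalarTower F K E]
  [FiniteDimensional K E]
  (N : Type) [Field N] [Algebra F N] [Algebra K N] [IsScalarTower F K N] [FiniteDimensional K N]
  [Algebra E N] [IsScalarTower F E N] [IsScalarTower K E N] [FiniteDimensional E N]

/-- Multiplicativity of the ramification index in towers. -/
theorem relRamIdx_tower :
    relRamIdx A F K N = relRamIdx A F E N * relRamIdx A F K E := by
  haveI : FiniteDimensional F N := FiniteDimensional.trans F K N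
  obtain ⟨ϖK, hK⟩ := exists_isUnif A F K
  obtain ⟨ϖE, hE⟩ := exists_isUnif A F E
  obtain ⟨ϖN, hN⟩ := exists_isUnif A F N
  have h1 := unif_mul_zpow_relRamIdx A F K N ϖK ϖN hK hN
  have h2 := unif_mul_zpow_relRamIdx A F E N ϖE ϖN hE hN
  have h3 := unif_mul_zpow_relRamIdx A F K E ϖK ϖE hK hE
  have h3' : unitsIncl N E (unitsIncl E K ϖK * ϖE ^ (-(relRamIdx A F K E : ℤ))) ∈
      intUnits A F N := (intUnitsComap A F E N _).mpr h3
  have htow : unitsIncl N E (unitsIncl E K ϖK) = unitsIncl N K ϖK := by
    apply Units.ext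
    simp only [unitsIncl_coe]
    exact (IsScalarTower.algebraMap_apply K E N _).symm
  have key : ϖN ^ ((relRamIdx A F K N : ℤ) -
      (relRamIdx A F E N : ℤ) * (relRamIdx A F K E : ℤ)) ∈ intUnits A F N := by
    have : ϖN ^ ((relRamIdx A F K N : ℤ) -
        (relRamIdx A F E N : ℤ) * (relRamIdx A F K E : ℤ)) =
        (unitsIncl N K ϖK * ϖN ^ (-(relRamIdx A F K N : ℤ)))⁻¹ *
          unitsIncl N E (unitsIncl E K ϖK * ϖE ^ (-(relRamIdx A F K E : ℤ))) *
          (unitsIncl N E ϖE * ϖN ^ (-(relRamIdx A F E N : ℤ))) ^ (relRamIdx A F K E : ℤ) := by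
      rw [map_mul, map_zpow, htow]
      apply Additive.ofMul.injective
      simp only [ofMul_mul, ofMul_zpow, ofMul_inv]
      module
    rw [this]
    exact (intUnits A F N).mul_mem ((intUnits A F N).mul_mem ((intUnits A F N).inv_mem h1) h3')
      ((intUnits A F N).zpow_mem h2 _)
  have h0 := (unif_zpow_mem_iff A F N ϖN hN _).mp key
  have : (relRamIdx A F K N : ℤ) = ((relRamIdx A F E N * relRamIdx A F K E : ℕ) : ℤ) := by
    push_cast
    omega
  exact_mod_cast this

end Tower3

end Fermat.Agent.S55.Local.H608
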