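import Fermat.Agent.S55.Local.H608.Inertia
import Fermat.Agent.S55.Local.Spec2

/-!
# S55 layer L, piece UR6' / UR6 (helper608): inertia subgroup with cardinality

* `inertiaCard : InertiaCardStatement`   (UR6')
* `inertia : InertiaStatement`           (UR6)
-/

set_option autoImplicit false
set_option linter.unusedSectionVars false
set_option linter.style.haveILetI false

namespace Fermat.Agent.S55.Local.H608

open IsLocalRing

section Aux

variable (A F : Type) [CommRing A] [Field F] [Algebra A F]
  (K : Type) [Field K] [Algebra F K]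
  (L : Type) [Field L] [Algebra F L] [Algebra K L] [IsScalarTower F K L]

/-- Automorphisms preserve the maximal ideal. -/
theorem isNonUnitInt_algEquiv (τ : L ≃ₐ[K] L) {y : L} (hy : IsNonUnitInt A F L y) :
    IsNonUnitInt A F L (τ y) := by
  refine ⟨isInt_algEquiv A F L K τ hy.1, fun u hu hmem => ?_⟩
  have hu0 : y ≠ 0 := by
    rintro rfl
    rw [map_zero] at hu
    exact u.ne_zero hu
  refine hy.2 (Units.mk0 y hu0) rfl ?_
  rw [mem_intUnits] at hmem ⊢
  constructor
  · exact hy.1
  · have h1 : ((Units.mk0 y hu0)⁻¹ : Lˣ) = Units.mk0 y⁻¹ (inv_ne_zero hu0) := by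
      apply Units.ext; simp
    rw [h1, Units.val_mk0]
    have h2 : τ.symm (((u⁻¹ : Lˣ) : L)) = y⁻¹ := by
      rw [Units.val_inv_eq_inv_val, hu, ← map_inv₀, AlgEquiv.symm_apply_apply]
    rw [← h2]
    exact isInt_algEquiv A F L K τ.symm hmem.2

end Aux

/-- (UR6') -/
theorem inertiaCard : InertiaCardStatement := by
  intro A F _ _ _ _ _ _ _ _ _ K _ _ _ N _ _ _ _ _ _
  haveI : FiniteDimensional F N := FiniteDimensional.trans F K N
  refine ⟨inertiaSub A F K N, ⟨?_⟩, ?_, ?_⟩
  · -- normality
    intro σ hσ τ
    rw [mem_inertiaSub_iff] at hσ ⊢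
    intro x hx
    have h1 := hσ (τ.symm x) (isInt_algEquiv A F N K τ.symm hx)
    have h2 := isNonUnitInt_algEquiv A F K N τ h1
    have h3 : (τ * σ * τ⁻¹) x - x = τ (σ (τ.symm x) - τ.symm x) := by
      rw [map_sub, AlgEquiv.apply_symm_apply]
      rfl
    rw [h3]
    exact h2
  · -- the inertia property
    intro E
    have h_eq : (((algebraMap K E).comp (algebraMap F K)).toAlgebra : Algebra F E) =
        (inferInstance : Algebra F E) := by
      apply Algebra.algebra_ext
      intro r
      apply Subtype.ext
      show algebraMap K N (algebraMap F K r) = algebraMap F N r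
      rw [← IsScalarTower.algebraMap_apply]
    show (IsUnram A F N E ↔ _) ∧
      (@IsUnram A F _ _ _ E _ (((algebraMap K E).comp (algebraMap F K)).toAlgebra) K _ _ ↔ _)
    rw [h_eq]
    haveI : IsScalarTower F K E := inferInstance
    haveI : FiniteDimensional F E := FiniteDimensional.trans F K E
    haveI : IsScalarTower F E N := IsScalarTower.of_algebraMap_eq (fun _ => rfl)
    have h1 : IsUnram A F N E ↔ relRamIdx A F E N = 1 := isUnram_iff_relRamIdx A F E N
    have h2 : IsUnram A F E K ↔ relRamIdx A F K E = 1 := isUnram_iff_relRamIdx A F K E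
    have h3 : relRamIdx A F K N = relRamIdx A F E N * relRamIdx A F K E :=
      relRamIdx_tower A F K E N
    have h4 : Nat.card (inertiaSub A F K N) = relRamIdx A F K N := card_inertiaSub A F K N
    have h5 : Nat.card (inertiaSub A F E N) = relRamIdx A F E N := card_inertiaSub A F E N
    have h6 : Nat.card (E.fixingSubgroup ⊓ inertiaSub A F K N : Subgroup (N ≃ₐ[K] N)) =
        Nat.card (inertiaSub A F E N) := by
      apply Nat.card_congr
      refine
        { toFun := fun σ => ⟨IntermediateField.fixingSubgroupEquiv E ⟨σ.1, σ.2.1⟩, ?_⟩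
          invFun := fun τ => ⟨((IntermediateField.fixingSubgroupEquiv E).symm τ.1).1,
            ((IntermediateField.fixingSubgroupEquiv E).symm τ.1).2, ?_⟩
          left_inv := ?_
          right_inv := ?_ }
      · rw [mem_inertiaSub_iff]
        intro x hx
        exact (mem_inertiaSub_iff A F K N σ.1).mp σ.2.2 x hx
      · show ((IntermediateField.fixingSubgroupEquiv E).symm τ.1).1 ∈ inertiaSub A F K N
        rw [mem_inertiaSub_iff]
        intro x hx
        exact (mem_inertiaSub_iff A F E N τ.1).mp τ.2 x hx
      · intro σ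
        apply Subtype.ext
        ext x
        rfl
      · intro τ
        apply Subtype.ext
        ext x
        rfl
    have hpos1 := relRamIdx_pos A F E N
    have hpos2 := relRamIdx_pos A F K E
    constructor
    · rw [h1, ← h5, ← h6, Subgroup.card_eq_one]
    · rw [h2]
      constructor
      · intro he
        have hcard : Nat.card (inertiaSub A F K N) ≤
            Nat.card (E.fixingSubgroup ⊓ inertiaSub A F K N : Subgroup (N ≃ₐ[K] N)) := by
          rw [h6, h5, h4, h3, he, mul_one]
        have := Subgroup.eq_of_le_of_card_ge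
          (inf_le_right : E.fixingSubgroup ⊓ inertiaSub A F K N ≤ inertiaSub A F K N) hcard
        rw [← this]
        exact inf_le_left
      · intro hle
        have : E.fixingSubgroup ⊓ inertiaSub A F K N = inertiaSub A F K N :=
          inf_eq_right.mpr hle
        rw [this, h4, h5, h3] at h6
        have h7 : relRamIdx A F E N * relRamIdx A F K E = relRamIdx A F E N * 1 := by
          rw [h6, mul_one]
        exact Nat.eq_of_mul_eq_mul_left hpos1 h7
  · -- cardinality
    intro ϖK ϖN hK hN
    rw [card_inertiaSub A F K N]
    exact unif_mul_zpow_relRamIdx A F K N ϖK ϖN hK hN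

/-- (UR6) -/
theorem inertia : InertiaStatement := inertiaStatement_of_inertiaCard inertiaCard

end Fermat.Agent.S55.Local.H608
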